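import Fermat.Agent.GAL.FF.Places

/-!
# S18 / Level / Infty : the place `q = 0` of a function field inside `K((q))`
-/

set_option autoImplicit false

open AlgebraicCurve

namespace Fermat.Agent.S18

open Fermat.Agent.S24.FF

theorem infty_order_inv {K : Type*} [Field K] {x : LaurentSeries K} (hx : x ≠ 0) :
    x⁻¹.order = - x.order := by
  have h1 := HahnSeries.order_mul hx (inv_ne_zero hx)
  rw [mul_inv_cancel₀ hx, HahnSeries.order_one] at h1
  omega

theorem infty_order_zpow {K : Type*} [Field K] {x : LaurentSeries K} (hx : x ≠ 0) (m : ℤ) :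
    (x ^ m).order = m * x.order := by
  have hnat : ∀ n : ℕ, (x ^ n).order = n * x.order := by
    intro n
    induction n with
    | zero => simp
    | succ n ih =>
      rw [pow_succ, HahnSeries.order_mul (pow_ne_zero n hx) hx, ih]
      push_cast; ring
  obtain ⟨n, rfl | rfl⟩ := m.eq_nat_or_neg
  · rw [zpow_natCast, hnat]
  · rw [zpow_neg, zpow_natCast, infty_order_inv (pow_ne_zero n hx), hnat]
    ring

/-- the valuation subring `{x | 0 ≤ order x}`. -/
def inftySubring {K : Type*} [Field K] (F : IntermediateField K (LaurentSeries K)) :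
    ValuationSubring F where
  carrier := {x | 0 ≤ (x : LaurentSeries K).order}
  mul_mem' := by
    intro a b ha hb
    simp only [Set.mem_ofPred_eq] at ha hb ⊢
    rcases eq_or_ne a 0 with rfl | ha0
    · simp
    rcases eq_or_ne b 0 with rfl | hb0
    · simp
    have ha0' : (a : LaurentSeries K) ≠ 0 := by simpa using ha0
    have hb0' : (b : LaurentSeries K) ≠ 0 := by simpa using hb0
    rw [IntermediateField.coe_mul, HahnSeries.order_mul ha0' hb0']
    omega
  one_mem' := by simp
  add_mem' := by
    intro a b ha hb
    simp only [Set.mem_ofPred_eq] at ha hb ⊢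
    rcases eq_or_ne ((a : LaurentSeries K) + b) 0 with h0 | h0
    · rw [IntermediateField.coe_add, h0]; simp
    · have := HahnSeries.min_order_le_order_add h0
      rw [IntermediateField.coe_add]
      exact le_trans (le_min ha hb) this
  zero_mem' := by simp
  neg_mem' := by
    intro a ha
    simp only [Set.mem_ofPred_eq] at ha ⊢
    rw [IntermediateField.coe_neg, HahnSeries.order_neg]
    exact ha
  mem_or_inv_mem' := by
    intro a
    simp only [Set.mem_ofPred_eq]
    rcases eq_or_ne a 0 with rfl | ha0
    · left; simp
    have ha0' : (a : LaurentSeries K) ≠ 0 := by simpa using ha0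
    rw [IntermediateField.coe_inv, infty_order_inv ha0']
    omega

theorem mem_inftySubring {K : Type*} [Field K] (F : IntermediateField K (LaurentSeries K))
    (x : F) : x ∈ inftySubring F ↔ 0 ≤ (x : LaurentSeries K).order := Iff.rfl

/-- **Package S18-F.** `O = {x | 0 ≤ order x}` is a valuation subring of `F`, use
`GAL.FF.exists_place_of_valuationSubring`; `ord = order` because `t` has order `-1`. -/
theorem exists_place_infty {K : Type*} [Field K] (F : IntermediateField K (LaurentSeries K))
    [IsFF1 K F] (t : F) (ht : (t : LaurentSeries K).order = -1) :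
    ∃ P : Place K F, ∀ x : F, P.ord x = (x : LaurentSeries K).order := by
  have ht0' : (t : LaurentSeries K) ≠ 0 := by
    intro h0
    rw [h0, HahnSeries.order_zero] at ht
    omega
  have ht0 : t ≠ 0 := by
    intro h0
    exact ht0' (by rw [h0]; rfl)
  obtain ⟨P, hP⟩ := Fermat.Agent.GAL.FF.exists_place_of_valuationSubring (inftySubring F)
    (by
      intro a
      rw [mem_inftySubring]
      have : ((algebraMap K F a : F) : LaurentSeries K) = HahnSeries.C a := by
        have h1 : algebraMap K (PowerSeries K) a = PowerSeries.C a := by simp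
        have h2 : algebraMap K (LaurentSeries K) a = HahnSeries.C a := by
          rw [HahnSeries.algebraMap_apply', h1, HahnSeries.ofPowerSeries_C]
        rw [← h2]
        exact (IsScalarTower.algebraMap_apply K F (LaurentSeries K) a).symm
      rw [this, HahnSeries.order_C])
    (by
      intro htop
      have : t ∈ inftySubring F := by rw [htop]; trivial
      rw [mem_inftySubring, ht] at this
      omega)
  have hmem : ∀ x : F, x ≠ 0 → (0 ≤ P.ord x ↔ 0 ≤ (x : LaurentSeries K).order) := by
    intro x hx
    rw [← mem_toValuationSubring_iff P hx, hP, mem_inftySubring]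
  -- order zero implies ord zero
  have hunit : ∀ x : F, x ≠ 0 → (x : LaurentSeries K).order = 0 → P.ord x = 0 := by
    intro x hx h0
    have hx' : (x : LaurentSeries K) ≠ 0 := by simpa using hx
    have h1 := (hmem x hx).mpr h0.ge
    have h2 := (hmem x⁻¹ (inv_ne_zero hx)).mpr (by
      rw [IntermediateField.coe_inv, infty_order_inv hx', h0]; simp)
    rw [P.ord_inv] at h2
    omega
  -- general formula
  have hgen : ∀ x : F, x ≠ 0 → P.ord x = - (x : LaurentSeries K).order * P.ord t := by
    intro x hx
    have hx' : (x : LaurentSeries K) ≠ 0 := by simpa using hx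
    set m := (x : LaurentSeries K).order with hm
    have hu0 : x * t ^ m ≠ 0 := mul_ne_zero hx (zpow_ne_zero m ht0)
    have hz : ((t ^ m : F) : LaurentSeries K) = (t : LaurentSeries K) ^ m := map_zpow₀ F.val t m
    have h1 := hunit (x * t ^ m) hu0 (by
      rw [IntermediateField.coe_mul, hz,
        HahnSeries.order_mul hx' (zpow_ne_zero m ht0'), infty_order_zpow ht0', ht]
      omega)
    rw [P.ord_mul hx (zpow_ne_zero m ht0), P.ord_zpow] at h1
    linarith
  have htneg : P.ord t < 0 := by
    by_contra hcon
    push Not at hcon
    have := (hmem t ht0).mp hcon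
    omega
  have ht1 : P.ord t = -1 := by
    obtain ⟨π, hπ⟩ := exists_ord_eq_one P
    have hπ0 : π ≠ 0 := ne_zero_of_ord_ne_zero P (by omega)
    have h1 := hgen π hπ0
    rw [hπ] at h1
    have h2 : (- P.ord t) * (π : LaurentSeries K).order = 1 := by linarith
    have := Int.eq_one_of_mul_eq_one_right (by omega) h2
    omega
  refine ⟨P, fun x => ?_⟩
  rcases eq_or_ne x 0 with rfl | hx
  · simp
  · rw [hgen x hx, ht1]; ring

end Fermat.Agent.S18
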