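import Fermat.Agent.S24.Mod.Degree

/-!
# S18 / Level / Fricke : the Fricke involution of the function field `FN M`

`w (j(q^d)) = j(q^(M/d))`.  Proof: a polynomial relation between the `j(q^d)` holds in `ℚ̄((q))` iff
it holds between the functions `τ ↦ j(dτ)` on `ℍ` (`S24.Psi`, injective); substitute
`τ ↦ -1/(Mτ)` and use `j(-1/z) = j(z)`.
-/

set_option autoImplicit false

open ModularCurve

noncomputable section

namespace Fermat.Agent.S18

open Fermat.Agent.S24 UpperHalfPlane

/-- abstract algebra: two families with the same polynomial relations, the first generating the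
field, are related by a field homomorphism. -/
theorem fricke_exists_algHom {K F I : Type*} [Field K] [Field F] [Algebra K F] (x y : I → F)
    (hx : ∀ z : F, ∃ r s : MvPolynomial I K, z = MvPolynomial.aeval x r / MvPolynomial.aeval x s)
    (h : ∀ P : MvPolynomial I K, MvPolynomial.aeval x P = 0 ↔ MvPolynomial.aeval y P = 0) :
    ∃ w : F →ₐ[K] F, ∀ i, w (x i) = y i := by
  classical
  let φ : MvPolynomial I K →ₐ[K] F := MvPolynomial.aeval x
  let R : Subalgebra K F := φ.range
  have hsurj : Function.Surjective φ.rangeRestrict := φ.rangeRestrict_surjective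
  have : IsFractionRing R F := IsFractionRing.of_field (R := R) (K := F) (by
    intro z
    obtain ⟨r, s, hz⟩ := hx z
    exact ⟨φ.rangeRestrict r, φ.rangeRestrict s, hz⟩)
  let g0 : (MvPolynomial I K ⧸ RingHom.ker φ.rangeRestrict) →ₐ[K] F :=
    Ideal.Quotient.liftₐ _ (MvPolynomial.aeval y) (by
      intro a ha
      have h1 : φ.rangeRestrict a = 0 := ha
      have h2 : MvPolynomial.aeval x a = 0 := congrArg Subtype.val h1
      exact (h a).mp h2)
  let g : R →ₐ[K] F := g0.comp (Ideal.quotientKerAlgEquivOfSurjective hsurj).symm.toAlgHom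
  have hg : ∀ P, g (φ.rangeRestrict P) = MvPolynomial.aeval y P := by
    intro P
    have h1 : (Ideal.quotientKerAlgEquivOfSurjective hsurj).symm (φ.rangeRestrict P)
        = Ideal.Quotient.mk _ P := by
      rw [AlgEquiv.symm_apply_eq]
      rfl
    show g0 ((Ideal.quotientKerAlgEquivOfSurjective hsurj).symm (φ.rangeRestrict P)) = _
    rw [h1]
    rfl
  have hginj : Function.Injective g := by
    rw [injective_iff_map_eq_zero]
    intro r hr
    obtain ⟨P, rfl⟩ := hsurj r
    rw [hg] at hr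
    exact Subtype.ext ((h P).mpr hr)
  refine ⟨IsFractionRing.liftAlgHom hginj, fun i => ?_⟩
  have h1 : x i = algebraMap R F (φ.rangeRestrict (MvPolynomial.X i)) := by
    show x i = MvPolynomial.aeval x (MvPolynomial.X i)
    rw [MvPolynomial.aeval_X]
  rw [h1, IsFractionRing.liftAlgHom_apply, IsFractionRing.lift_algebraMap]
  show g _ = _
  rw [hg, MvPolynomial.aeval_X]

/-- the index set: factorisations `M = d * e`. -/
abbrev FrickeI (M : ℕ) : Type := {p : ℕ × ℕ // M = p.1 * p.2}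

theorem FrickeI.neZero_fst {M : ℕ} [NeZero M] (p : FrickeI M) : NeZero p.1.1 :=
  ⟨fun h => NeZero.ne M (by rw [p.2, h, zero_mul])⟩

theorem FrickeI.neZero_snd {M : ℕ} [NeZero M] (p : FrickeI M) : NeZero p.1.2 :=
  ⟨fun h => NeZero.ne M (by rw [p.2, h, mul_zero])⟩

/-- `(d, e) ↦ (e, d)`. -/
def FrickeI.swap {M : ℕ} (p : FrickeI M) : FrickeI M := ⟨(p.1.2, p.1.1), p.2.trans (mul_comm _ _)⟩

theorem FrickeI.swap_swap {M : ℕ} (p : FrickeI M) : p.swap.swap = p := rfl

/-- `(d, e) ↦ j(q^d)`. -/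
def frickeX (M : ℕ) [NeZero M] (p : FrickeI M) : FN M :=
  have := p.neZero_fst
  Jd M p.1.1 (Dvd.intro _ p.2.symm)

/-- `(d, e) ↦ j(dτ)`. -/
def frickeJ (M : ℕ) [NeZero M] (p : FrickeI M) : ℍ → ℂ :=
  have := p.neZero_fst
  jD p.1.1

/-- `(d, e) ↦ j(dτ)` in `MerMod M`. -/
def frickeMer (M : ℕ) [NeZero M] (p : FrickeI M) : MerMod M :=
  have := p.neZero_fst
  ⟨jD p.1.1, jD_mem_MerMod (Dvd.intro _ p.2.symm)⟩

theorem fricke_Psi (M : ℕ) [NeZero M] (p : FrickeI M) :
    Psi M (frickeX M p) = algebraMap (MerMod M) (LL M) (frickeMer M p) := by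
  have := p.neZero_fst
  exact Psi_Jd M p.1.1 (Dvd.intro _ p.2.symm)

/-- polynomial relations can be tested on the upper half plane. -/
theorem fricke_aeval_eq_zero_iff (M : ℕ) [NeZero M] {J : Type*} (σ : J → FrickeI M)
    (P : MvPolynomial J Kb) :
    MvPolynomial.aeval (fun i => frickeX M (σ i)) P = 0 ↔
      ∀ τ : ℍ, MvPolynomial.aeval (fun i => frickeJ M (σ i) τ) P = 0 := by
  have h1 : Psi M (MvPolynomial.aeval (fun i => frickeX M (σ i)) P)
      = algebraMap (MerMod M) (LL M) (MvPolynomial.aeval (fun i => frickeMer M (σ i)) P) := by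
    rw [MvPolynomial.comp_aeval_apply]
    simp only [fricke_Psi]
    exact MvPolynomial.aeval_algebraMap_apply (LL M) (fun i => frickeMer M (σ i)) P
  have h2 : ∀ τ : ℍ, (MvPolynomial.aeval (fun i => frickeMer M (σ i)) P : MerMod M).1 τ
      = MvPolynomial.aeval (fun i => frickeJ M (σ i) τ) P := by
    intro τ
    exact MvPolynomial.comp_aeval_apply _ ((evalM M τ).restrictScalars Kb) P
  rw [← map_eq_zero_iff (Psi M) (Psi M).toRingHom.injective, h1,
    map_eq_zero_iff _ (IsFractionRing.injective (MerMod M) (LL M))]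
  constructor
  · intro h τ
    rw [← h2, h]
    rfl
  · intro h
    apply Subtype.ext
    funext τ
    rw [h2, h]
    rfl

/-- `τ ↦ -1/(Mτ)`. -/
def frickeW (M : ℕ) [NeZero M] (τ : ℍ) : ℍ := ModularGroup.S • scaleH M τ

theorem frickeJ_frickeW (M : ℕ) [NeZero M] (p : FrickeI M) (τ : ℍ) :
    frickeJ M p (frickeW M τ) = frickeJ M p.swap τ := by
  have := p.neZero_fst
  have := p.neZero_snd
  show jFun (scaleH p.1.1 (ModularGroup.S • scaleH M τ)) = jFun (scaleH p.1.2 τ)
  rw [← jFun_smul ModularGroup.S (scaleH p.1.2 τ)]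
  congr 1
  rw [UpperHalfPlane.modular_S_smul, UpperHalfPlane.modular_S_smul]
  apply UpperHalfPlane.ext
  have hd : ((p.1.1 : ℕ) : ℂ) ≠ 0 := Nat.cast_ne_zero.mpr (NeZero.ne _)
  have he : ((p.1.2 : ℕ) : ℂ) ≠ 0 := Nat.cast_ne_zero.mpr (NeZero.ne _)
  have hτ : (τ : ℂ) ≠ 0 := UpperHalfPlane.ne_zero τ
  have hM : (M : ℂ) = (p.1.1 : ℂ) * (p.1.2 : ℂ) := by
    rw [← Nat.cast_mul, ← p.2]
  show ((p.1.1 : ℕ) : ℂ) * (-((M : ℂ) * (τ : ℂ)))⁻¹ = (-(((p.1.2 : ℕ) : ℂ) * (τ : ℂ)))⁻¹
  rw [hM]
  field_simp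

theorem fricke_relations (M : ℕ) [NeZero M] (P : MvPolynomial (FrickeI M) Kb) :
    MvPolynomial.aeval (frickeX M) P = 0 ↔
      MvPolynomial.aeval (fun p => frickeX M p.swap) P = 0 := by
  rw [fricke_aeval_eq_zero_iff M (fun p => p.swap) P]
  have h0 := fricke_aeval_eq_zero_iff M (fun p => p) P
  rw [h0]
  constructor
  · intro h τ
    have := h (frickeW M τ)
    simpa only [frickeJ_frickeW] using this
  · intro h τ
    have := h (frickeW M τ)
    simpa only [frickeJ_frickeW, FrickeI.swap_swap] using this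

theorem fricke_generates (M : ℕ) [NeZero M] (z : FN M) :
    ∃ r s : MvPolynomial (FrickeI M) Kb,
      z = MvPolynomial.aeval (frickeX M) r / MvPolynomial.aeval (frickeX M) s := by
  have hz : (z : LaurentSeries Kb) ∈ IntermediateField.adjoin Kb
      (Set.range fun p : FrickeI M => ((frickeX M p : FN M) : LaurentSeries Kb)) := by
    have h1 : (z : LaurentSeries Kb) ∈ IntermediateField.adjoin Kb
        {x | ∃ (d : ℕ) (_ : NeZero d), d ∣ M ∧ x = JdL d} :=
      modularFunctionFieldBar_eq_adjoin M ▸ z.2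
    convert h1 using 2
    ext y
    constructor
    · rintro ⟨p, rfl⟩
      exact ⟨p.1.1, p.neZero_fst, Dvd.intro _ p.2.symm, rfl⟩
    · rintro ⟨d, hd0, ⟨e, he⟩, rfl⟩
      exact ⟨⟨(d, e), he⟩, rfl⟩
  rw [IntermediateField.mem_adjoin_range_iff] at hz
  obtain ⟨r, s, hrs⟩ := hz
  refine ⟨r, s, Subtype.ext ?_⟩
  rw [hrs]
  have h2 : ∀ P : MvPolynomial (FrickeI M) Kb,
      MvPolynomial.aeval (fun p : FrickeI M => ((frickeX M p : FN M) : LaurentSeries Kb)) P
        = ((MvPolynomial.aeval (frickeX M) P : FN M) : LaurentSeries Kb) := by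
    intro P
    have h3 := MvPolynomial.comp_aeval_apply (frickeX M) (modularFunctionFieldBar M).val P
    exact h3.symm
  rw [h2, h2]
  rfl

/-- **Package S18-A.** The Fricke involution. -/
theorem exists_fricke (M : ℕ) [NeZero M] :
    ∃ w : FN M ≃ₐ[Kb] FN M, ∀ (d e : ℕ) [NeZero d] [NeZero e] (h : M = d * e),
      w (Jd M d (Dvd.intro e h.symm)) = Jd M e (Dvd.intro_left d h.symm) := by
  obtain ⟨w, hw⟩ := fricke_exists_algHom (frickeX M) (fun p => frickeX M p.swap)
    (fricke_generates M) (fricke_relations M)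
  have hw' : ∀ (d e : ℕ) [NeZero d] [NeZero e] (h : M = d * e),
      w (Jd M d (Dvd.intro e h.symm)) = Jd M e (Dvd.intro_left d h.symm) := by
    intro d e _ _ h
    exact hw ⟨(d, e), h⟩
  have hww : w.comp w = AlgHom.id Kb (FN M) := by
    apply algHom_ext_FN
    intro d _ hd
    obtain ⟨e, he⟩ := hd
    have : NeZero e := ⟨fun h => NeZero.ne M (by rw [he, h, mul_zero])⟩
    have h1 := hw' d e he
    have h2 := hw' e d (by rw [he, mul_comm])
    rw [AlgHom.comp_apply, AlgHom.id_apply]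
    exact (congrArg w h1).trans h2
  exact ⟨AlgEquiv.ofAlgHom w w hww hww, hw'⟩

end Fermat.Agent.S18
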