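import Fermat.Agent.S24.Mod.Degree
import Fermat.Prelude.Def_ModularCurve_HeckeOperator

/-!
# S18 / Level / AlphaDeg : the degree of `FN (N*d)` over `FN N` (inclusion `heckeAlphaBar`)
-/

set_option autoImplicit false

open ModularCurve AlgebraicCurve

namespace Fermat.Agent.S18

open Fermat.Agent.S24 IntermediateField

section Abstract

variable {K F F' : Type*} [Field K] [Field F] [Field F'] [Algebra K F] [Algebra K F']

/-- the isomorphism `K(t) ≃ K(φ t)` induced by `φ`. -/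
noncomputable def alphaDeg_equiv (φ : F →ₐ[K] F') (t : F) : K⟮t⟯ ≃ₐ[K] K⟮φ t⟯ :=
  (IntermediateField.equivMap K⟮t⟯ φ).trans
    (IntermediateField.equivOfEq (by rw [IntermediateField.adjoin_map, Set.image_singleton]))

theorem alphaDeg_equiv_coe (φ : F →ₐ[K] F') (t : F) (x : K⟮t⟯) :
    ((alphaDeg_equiv φ t x : K⟮φ t⟯) : F') = φ (x : F) := rfl

/-- abstract tower law along a homomorphism of function fields. -/
theorem alphaDeg_abstract (φ : F →ₐ[K] F') (t : F) [FiniteDimensional K⟮t⟯ F]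
    [FiniteDimensional K⟮φ t⟯ F'] :
    FiniteAlong K φ ∧
      finrankAlong K φ * Module.finrank K⟮t⟯ F = Module.finrank K⟮φ t⟯ F' := by
  let _ := algebraAlong φ
  let _ : Algebra K⟮t⟯ F' := (φ.toRingHom.comp (algebraMap K⟮t⟯ F)).toAlgebra
  have : IsScalarTower K⟮t⟯ F F' := IsScalarTower.of_algebraMap_eq fun _ => rfl
  let e : K⟮t⟯ ≃+* K⟮φ t⟯ := (alphaDeg_equiv φ t).toRingEquiv
  have hc : (algebraMap K⟮φ t⟯ F').comp e.toRingHom =
      (RingEquiv.refl F').toRingHom.comp (algebraMap K⟮t⟯ F') := by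
    ext x
    rfl
  have hc' : (algebraMap K⟮t⟯ F').comp (e.symm : K⟮φ t⟯ →+* K⟮t⟯) =
      RingHom.comp (RingEquiv.refl F' : F' →+* F') (algebraMap K⟮φ t⟯ F') := by
    ext x
    obtain ⟨y, rfl⟩ := e.surjective x
    have := DFunLike.congr_fun hc y
    simp only [RingHom.comp_apply, RingHom.coe_coe, RingEquiv.symm_apply_apply]
    exact this.symm
  have hfin : Module.Finite K⟮t⟯ F' := Module.Finite.of_equiv_equiv e.symm (RingEquiv.refl F') hc'
  have hfin' : Module.Finite F F' := Module.Finite.of_restrictScalars_finite K⟮t⟯ F F'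
  refine ⟨hfin', ?_⟩
  have h1 : Module.finrank K⟮t⟯ F' = Module.finrank K⟮φ t⟯ F' :=
    Algebra.finrank_eq_of_equiv_equiv e (RingEquiv.refl F') hc
  have h2 : Module.finrank K⟮t⟯ F * Module.finrank F F' = Module.finrank K⟮t⟯ F' :=
    Module.finrank_mul_finrank K⟮t⟯ F F'
  rw [← h1, ← h2, mul_comm]
  rfl

end Abstract

theorem alphaDeg_JJ (N d : ℕ) [NeZero N] [NeZero d] :
    heckeAlphaBar Kb N d (JJ N) = JJ (N * d) := by
  apply Subtype.ext
  rw [coe_heckeAlphaBar]
  rfl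

theorem alphaDeg_main (N d : ℕ) [NeZero N] [NeZero d] :
    FiniteAlong Kb (heckeAlphaBar Kb N d) ∧
      finrankAlong Kb (heckeAlphaBar Kb N d) * Nat.card (Cos N) = Nat.card (Cos (N * d)) := by
  have : FiniteDimensional Kb⟮JJ N⟯ (FN N) := finiteDimensional_FN N
  have : FiniteDimensional Kb⟮heckeAlphaBar Kb N d (JJ N)⟯ (FN (N * d)) := by
    rw [alphaDeg_JJ]
    exact finiteDimensional_FN (N * d)
  have h := alphaDeg_abstract (heckeAlphaBar Kb N d) (JJ N)
  refine ⟨h.1, ?_⟩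
  have h2 := h.2
  rw [finrank_FN N] at h2
  rw [h2, alphaDeg_JJ, finrank_FN (N * d)]

/-- **Package S18-B (1).** -/
theorem finiteAlong_alpha (N d : ℕ) [NeZero N] [NeZero d] :
    FiniteAlong Kb (heckeAlphaBar Kb N d) :=
  (alphaDeg_main N d).1

/-- **Package S18-B (2).** Tower law for `ℚ̄(j) ⊆ FN N ⊆ FN (N*d)` and `S24.finrank_FN`. -/
theorem finrankAlong_alpha (N d : ℕ) [NeZero N] [NeZero d] :
    finrankAlong Kb (heckeAlphaBar Kb N d) * Nat.card (Cos N) = Nat.card (Cos (N * d)) :=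
  (alphaDeg_main N d).2

end Fermat.Agent.S18
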