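import Fermat.Agent.S24.Mod.Field
import Fermat.Agent.Lib.Gamma0Cosets

/-!
# S18 / Level / Index : `[Γ₀(N) : Γ₀(Np)] ≤ p + 1`
-/

set_option autoImplicit false

namespace Fermat.Agent.S18

open Fermat.Agent.S24

/-- **Package S18-C.** (`Gamma0Cosets.card_mul`, `card_prime_pow`: write `N = p^a * N'`.) -/
theorem card_Cos_mul_prime_le (N p : ℕ) [NeZero N] (hp : p.Prime) :
    Nat.card (Cos (N * p)) ≤ (p + 1) * Nat.card (Cos N) := by
  have hN : N ≠ 0 := NeZero.ne N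
  obtain ⟨a, N', hN', rfl⟩ := Nat.exists_eq_pow_mul_and_not_dvd hN p hp.ne_one
  have hN'0 : N' ≠ 0 := by
    rintro rfl
    exact hN' (dvd_zero p)
  have hcop : ∀ k : ℕ, (p ^ k).Coprime N' := fun k =>
    Nat.Coprime.pow_left k ((Nat.Prime.coprime_iff_not_dvd hp).mpr hN')
  have h1 : p ^ a * N' * p = p ^ (a + 1) * N' := by ring
  have e1 : Nat.card (Cos (p ^ a * N' * p))
      = Nat.card (Lib.Gamma0Cosets.X (p ^ (a + 1))) * Nat.card (Lib.Gamma0Cosets.X N') := by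
    rw [h1]
    exact Lib.Gamma0Cosets.card_mul (pow_ne_zero _ hp.ne_zero) hN'0 (hcop _)
  have e2 : Nat.card (Cos (p ^ a * N'))
      = Nat.card (Lib.Gamma0Cosets.X (p ^ a)) * Nat.card (Lib.Gamma0Cosets.X N') :=
    Lib.Gamma0Cosets.card_mul (pow_ne_zero _ hp.ne_zero) hN'0 (hcop _)
  rw [e1, e2, ← mul_assoc]
  refine Nat.mul_le_mul_right _ ?_
  rw [Lib.Gamma0Cosets.card_prime_pow hp a]
  cases a with
  | zero =>
    rw [pow_zero, Lib.Gamma0Cosets.card_one]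
    simp
  | succ b =>
    rw [Lib.Gamma0Cosets.card_prime_pow hp b]
    have : p ^ (b + 1 + 1) + p ^ (b + 1) = p * (p ^ (b + 1) + p ^ b) := by ring
    rw [this]
    exact Nat.mul_le_mul_right _ (Nat.le_succ p)

end Fermat.Agent.S18
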