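import Fermat.Agent.S18.Level.Fricke
import Fermat.Agent.S18.Level.Index
import Fermat.Agent.S18.Level.AlphaDeg

/-!
# S18 / Level / BetaDeg : the degree of `FN (N*p)` over `β (FN N)`, `β = (q ↦ q^p)`

`β = w_{Np} ∘ α ∘ w_N` (check on the generators `Jd N d`, `S24.algHom_ext_FN`), hence
`finrankAlong β = finrankAlong α` (`Algebra.finrank_eq_of_equiv_equiv`).
-/

set_option autoImplicit false
set_option linter.style.haveILetI false

open ModularCurve AlgebraicCurve

namespace Fermat.Agent.S18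

open Fermat.Agent.S24

theorem BetaDeg.coeffEmb_qExpand (n : ℕ) [NeZero n] (x : LaurentSeries ℚ) :
    coeffEmb Kb (qExpand ℚ n x) = qExpand Kb n (coeffEmb Kb x) := by
  ext k
  by_cases hk : (n : ℤ) ∣ k
  · obtain ⟨m, rfl⟩ := hk
    rw [coeffEmb_coeff, qExpand_coeff_mul, qExpand_coeff_mul, coeffEmb_coeff]
  · rw [coeffEmb_coeff, qExpand_coeff_of_not_dvd n _ hk, qExpand_coeff_of_not_dvd n _ hk,
      map_zero]

theorem BetaDeg.qExpand_JdL (d e : ℕ) [NeZero d] [NeZero e] :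
    qExpand Kb d (JdL e) = JdL (d * e) := by
  unfold JdL
  rw [← BetaDeg.coeffEmb_qExpand, qExpand_qExpand]

/-- `β = w_{Nd} ∘ α ∘ w_N`. -/
theorem BetaDeg.exists_beta_eq (N d : ℕ) [NeZero N] [NeZero d] :
    ∃ (w : FN N ≃ₐ[Kb] FN N) (w' : FN (N * d) ≃ₐ[Kb] FN (N * d)),
      heckeBetaBar Kb N d =
        (w' : FN (N * d) →ₐ[Kb] FN (N * d)).comp
          ((heckeAlphaBar Kb N d).comp (w : FN N →ₐ[Kb] FN N)) := by
  obtain ⟨w, hw⟩ := exists_fricke N
  obtain ⟨w', hw'⟩ := exists_fricke (N * d)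
  refine ⟨w, w', ?_⟩
  apply algHom_ext_FN
  intro e _ he
  obtain ⟨e', rfl⟩ := he
  haveI : NeZero e' := ⟨fun h => NeZero.ne (e * e') (by rw [h, mul_zero])⟩
  rw [AlgHom.comp_apply, AlgHom.comp_apply, AlgEquiv.coe_toAlgHom, AlgEquiv.coe_toAlgHom]
  have h1 : w (Jd (e * e') e (Dvd.intro e' rfl)) = Jd (e * e') e' (Dvd.intro_left e rfl) :=
    hw e e' rfl
  have h2 : heckeAlphaBar Kb (e * e') d (Jd (e * e') e' (Dvd.intro_left e rfl))
      = Jd (e * e' * d) e' (Dvd.intro (d * e) (by ring)) :=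
    Subtype.ext (coe_heckeAlphaBar _ _ _)
  have h3 : w' (Jd (e * e' * d) e' (Dvd.intro (d * e) (by ring)))
      = Jd (e * e' * d) (d * e) (Dvd.intro_left e' (by ring)) :=
    hw' e' (d * e) (by ring)
  have h4 : heckeBetaBar Kb (e * e') d (Jd (e * e') e (Dvd.intro e' rfl))
      = Jd (e * e' * d) (d * e) (Dvd.intro_left e' (by ring)) :=
    Subtype.ext (BetaDeg.qExpand_JdL d e)
  rw [h4]
  exact (((congrArg w' ((congrArg (heckeAlphaBar Kb (e * e') d) h1).trans h2)).trans h3)).symm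

/-- the commutative square used to transport finiteness and the degree. -/
theorem BetaDeg.exists_square (N d : ℕ) [NeZero N] [NeZero d] :
    ∃ (i : FN N ≃+* FN N) (j : FN (N * d) ≃+* FN (N * d)),
      ((heckeBetaBar Kb N d).toRingHom).comp i.toRingHom
        = j.toRingHom.comp (heckeAlphaBar Kb N d).toRingHom := by
  obtain ⟨w, w', h⟩ := BetaDeg.exists_beta_eq N d
  refine ⟨w.symm.toRingEquiv, w'.toRingEquiv, ?_⟩
  ext1 x
  have := DFunLike.congr_fun h (w.symm x)
  simp only [AlgHom.comp_apply, AlgEquiv.coe_toAlgHom, AlgEquiv.apply_symm_apply] at this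
  exact this

/-- **Package S18-D (1).** -/
theorem finiteAlong_beta (N d : ℕ) [NeZero N] [NeZero d] :
    FiniteAlong Kb (heckeBetaBar Kb N d) := by
  obtain ⟨i, j, h⟩ := BetaDeg.exists_square N d
  have hα : FiniteAlong Kb (heckeAlphaBar Kb N d) := finiteAlong_alpha N d
  exact @Module.Finite.of_equiv_equiv (FN N) (FN (N * d)) (FN N) (FN (N * d)) _ _ _ _
    (algebraAlong (heckeAlphaBar Kb N d)) (algebraAlong (heckeBetaBar Kb N d)) i j h hα

/-- **Package S18-D (2).** -/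
theorem finrankAlong_beta (N d : ℕ) [NeZero N] [NeZero d] :
    finrankAlong Kb (heckeBetaBar Kb N d) = finrankAlong Kb (heckeAlphaBar Kb N d) := by
  obtain ⟨i, j, h⟩ := BetaDeg.exists_square N d
  exact (@Algebra.finrank_eq_of_equiv_equiv (FN N) (FN (N * d)) _ _
    (algebraAlong (heckeAlphaBar Kb N d)) (FN N) (FN (N * d)) _ _
    (algebraAlong (heckeBetaBar Kb N d)) i j h).symm

/-- **Package S18-D (3).** -/
theorem finrankAlong_beta_le (N p : ℕ) [NeZero N] [NeZero p] (hp : p.Prime) :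
    finrankAlong Kb (heckeBetaBar Kb N p) ≤ p + 1 := by
  rw [finrankAlong_beta]
  have h1 := finrankAlong_alpha N p
  have h2 := card_Cos_mul_prime_le N p hp
  rw [← h1] at h2
  exact Nat.le_of_mul_le_mul_right h2 Nat.card_pos

theorem BetaDeg.heckeBetaBarIntegral (N d : ℕ) [NeZero N] [NeZero d] : HeckeBetaBarIntegral Kb N d := by
  letI := algebraAlong (heckeBetaBar Kb N d)
  haveI : Module.Finite (FN N) (FN (N * d)) := finiteAlong_beta N d
  exact (Algebra.IsIntegral.of_finite (FN N) (FN (N * d))).isIntegral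

end Fermat.Agent.S18
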