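import Fermat.Agent.S18.Level.BetaDeg

/-!
# S18 / Level / Descent : `y(q^p) ∈ FN (N*p) → y ∈ FN N`

`E := {y | y(q^p) ∈ FN (N*p)}` is a field between `FN N` and ...; `1, j, …, j^(p-1)` are linearly
independent over `ℚ̄((q^p))` (orders are distinct mod `p`), so `[FN (Np) : β E] ≥ p`, while
`[FN (Np) : β (FN N)] ≤ p + 1 < 2 p`.
-/

set_option autoImplicit false

open ModularCurve AlgebraicCurve

namespace Fermat.Agent.S18

open Fermat.Agent.S24

/-- `qExpand` multiplies orders by `N`. -/
theorem descent_order_qExpand {R : Type*} [CommRing R] (N : ℕ) [NeZero N] (f : LaurentSeries R) :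
    (qExpand R N f).order = (N : ℤ) * f.order := by
  by_cases hf : f = 0
  · simp [hf]
  have hf' : qExpand R N f ≠ 0 := fun h => hf (qExpand_injective N (by simpa using h))
  apply le_antisymm
  · apply HahnSeries.order_le_of_coeff_ne_zero
    rw [qExpand_coeff_mul]
    exact HahnSeries.coeff_order_eq_zero.not.mpr hf
  · have h1 : (qExpand R N f).coeff (qExpand R N f).order ≠ 0 :=
      HahnSeries.coeff_order_eq_zero.not.mpr hf'
    by_cases hd : (N : ℤ) ∣ (qExpand R N f).order
    · obtain ⟨m, hm⟩ := hd
      rw [hm] at h1 ⊢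
      rw [qExpand_coeff_mul] at h1
      have := HahnSeries.order_le_of_coeff_ne_zero h1
      exact mul_le_mul_of_nonneg_left this (by positivity)
    · exact absurd (qExpand_coeff_of_not_dvd N f hd) h1

theorem descent_order_pow {K : Type*} [Field K] {x : LaurentSeries K} (hx : x ≠ 0) (n : ℕ) :
    (x ^ n).order = n * x.order := by
  induction n with
  | zero => simp
  | succ n ih =>
    rw [pow_succ, HahnSeries.order_mul (pow_ne_zero n hx) hx, ih]
    push_cast; ring

/-- **Package S18-E (1).** Powers of an element of order `-1` are independent over `K((q^p))`. -/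
theorem eq_zero_of_sum_qExpand_mul_pow {K : Type*} [Field K] (p : ℕ) [NeZero p]
    (t : LaurentSeries K) (ht : t.order = -1) (c : Fin p → LaurentSeries K)
    (h : ∑ i : Fin p, qExpand K p (c i) * t ^ (i : ℕ) = 0) : c = 0 := by
  classical
  by_contra hc
  have ht0 : t ≠ 0 := by
    intro h0
    rw [h0, HahnSeries.order_zero] at ht
    omega
  set T : Fin p → LaurentSeries K := fun i => qExpand K p (c i) * t ^ (i : ℕ) with hT
  have hT0 : ∀ i, c i ≠ 0 → T i ≠ 0 := fun i hi =>
    mul_ne_zero (fun h0 => hi (qExpand_injective p (by simpa using h0))) (pow_ne_zero _ ht0)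
  have hTo : ∀ i, c i ≠ 0 → (T i).order = (p : ℤ) * (c i).order - i := by
    intro i hi
    rw [hT]
    simp only
    rw [HahnSeries.order_mul (fun h0 => hi (qExpand_injective p (by simpa using h0)))
      (pow_ne_zero _ ht0), descent_order_qExpand, descent_order_pow ht0, ht]
    ring
  set S : Finset (Fin p) := Finset.univ.filter fun i => c i ≠ 0 with hS
  have hSne : S.Nonempty := by
    by_contra hemp
    rw [Finset.not_nonempty_iff_eq_empty] at hemp
    apply hc
    funext i
    by_contra hi
    have hi' : c i ≠ 0 := hi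
    have : i ∈ S := by simp [hS, hi']
    rw [hemp] at this
    exact absurd this (Finset.notMem_empty i)
  obtain ⟨i₀, hi₀S, hmin⟩ := Finset.exists_min_image S (fun i => (T i).order) hSne
  have hi₀ : c i₀ ≠ 0 := by simpa [hS] using hi₀S
  have hcoeff := congrArg (fun x : LaurentSeries K => x.coeff (T i₀).order) h
  simp only [HahnSeries.coeff_zero] at hcoeff
  rw [HahnSeries.coeff_sum] at hcoeff
  rw [Finset.sum_eq_single i₀] at hcoeff
  · exact HahnSeries.coeff_order_eq_zero.not.mpr (hT0 i₀ hi₀) hcoeff
  · intro i _ hne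
    by_cases hi : c i = 0
    · simp [hi]
    · apply HahnSeries.coeff_eq_zero_of_lt_order
      have hle := hmin i (by simp [hS, hi])
      refine lt_of_le_of_ne hle ?_
      intro heq
      change (T i₀).order = (T i).order at heq
      rw [hTo i₀ hi₀, hTo i hi] at heq
      apply hne
      have h1 : (p : ℤ) ∣ (i : ℤ) - (i₀ : ℤ) :=
        ⟨(c i).order - (c i₀).order, by linarith [mul_sub (p : ℤ) (c i).order (c i₀).order]⟩
      have h2 := i.2
      have h3 := i₀.2
      have h4 : (i : ℤ) - (i₀ : ℤ) = 0 := by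
        apply Int.eq_zero_of_abs_lt_dvd h1
        rw [abs_lt]
        constructor <;> omega
      exact Fin.ext (by omega)
  · intro hcon
    exact absurd (Finset.mem_univ i₀) hcon

theorem descent_order_JJ (M : ℕ) : ((JJ M : FN M) : LaurentSeries Kb).order = -1 := by
  have h1 := coeff_JJ_neg_one M
  have hne : ((JJ M : FN M) : LaurentSeries Kb) ≠ 0 := by
    intro h0
    rw [h0] at h1
    simp at h1
  apply le_antisymm
  · exact HahnSeries.order_le_of_coeff_ne_zero (by rw [h1]; exact one_ne_zero)
  · by_contra hlt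
    push Not at hlt
    have h2 : ((JJ M : FN M) : LaurentSeries Kb).coeff ((JJ M : FN M) : LaurentSeries Kb).order = 0 := by
      show (coeffEmb Kb (qExpand ℚ 1 jq)).coeff _ = 0
      rw [qExpand_one_apply, coeffEmb_coeff, coeff_jq_of_lt hlt, map_zero]
    exact HahnSeries.coeff_order_eq_zero.not.mpr hne h2

/-- abstract degree argument. -/
theorem descent_eq_bot {F₀ F' : Type*} [Field F₀] [Field F'] [Algebra F₀ F'] [Module.Finite F₀ F']
    (E : IntermediateField F₀ F') (p : ℕ) (hp : 2 ≤ p) (hdeg : Module.finrank F₀ F' ≤ p + 1)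
    (v : Fin p → F') (hli : LinearIndependent E v) : E = ⊥ := by
  have hpE : p ≤ Module.finrank E F' := by
    have := hli.fintype_card_le_finrank
    simpa using this
  have htower : Module.finrank F₀ E * Module.finrank E F' = Module.finrank F₀ F' :=
    Module.finrank_mul_finrank _ _ _
  have hE1 : Module.finrank F₀ E = 1 := by
    have hpos : 0 < Module.finrank F₀ E := Module.finrank_pos
    by_contra hne
    have h3 : 2 ≤ Module.finrank F₀ E := by omega
    have h4 : 2 * p ≤ Module.finrank F₀ E * Module.finrank E F' := Nat.mul_le_mul h3 hpE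
    omega
  exact IntermediateField.finrank_eq_one_iff.mp hE1

/-- **Package S18-E (2).** The descent lemma. -/
theorem mem_of_qExpand_mem (N p : ℕ) [NeZero N] [NeZero p] (hp : p.Prime) (y : LaurentSeries Kb)
    (hy : qExpand Kb p y ∈ modularFunctionFieldBar (N * p)) : y ∈ modularFunctionFieldBar N := by
  classical
  let _ : Algebra (FN N) (FN (N * p)) := algebraAlong (heckeBetaBar Kb N p)
  have : Module.Finite (FN N) (FN (N * p)) := finiteAlong_beta N p
  have hdeg : Module.finrank (FN N) (FN (N * p)) ≤ p + 1 := finrankAlong_beta_le N p hp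
  have halg : ∀ z : FN N, ((algebraMap (FN N) (FN (N * p)) z : FN (N * p)) : LaurentSeries Kb)
      = qExpand Kb p (z : LaurentSeries Kb) := fun z => rfl
  let E : IntermediateField (FN N) (FN (N * p)) :=
    { carrier := {x | ∃ c : LaurentSeries Kb, qExpand Kb p c = (x : LaurentSeries Kb)}
      mul_mem' := by
        rintro a b ⟨ca, ha⟩ ⟨cb, hb⟩
        exact ⟨ca * cb, by rw [map_mul, ha, hb]; rfl⟩
      one_mem' := ⟨1, by rw [map_one]; rfl⟩
      add_mem' := by
        rintro a b ⟨ca, ha⟩ ⟨cb, hb⟩
        exact ⟨ca + cb, by rw [map_add, ha, hb]; rfl⟩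
      zero_mem' := ⟨0, by rw [map_zero]; rfl⟩
      algebraMap_mem' := fun z => ⟨z, (halg z).symm⟩
      inv_mem' := by
        rintro a ⟨ca, ha⟩
        exact ⟨ca⁻¹, by rw [map_inv₀, ha]; rfl⟩ }
  have hEmem : ∀ x : FN (N * p), x ∈ E ↔
      ∃ c : LaurentSeries Kb, qExpand Kb p c = (x : LaurentSeries Kb) := fun x => Iff.rfl
  -- `1, j, …, j^(p-1)` are independent over `E`
  have hli : LinearIndependent E (fun i : Fin p => (JJ (N * p)) ^ (i : ℕ)) := by
    rw [Fintype.linearIndependent_iff]
    intro g hg
    choose c hc using fun i => (hEmem (g i : FN (N * p))).mp (g i).2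
    have h1 : ∑ i : Fin p, qExpand Kb p (c i) * ((JJ (N * p) : FN (N * p)) : LaurentSeries Kb) ^ (i : ℕ)
        = 0 := by
      have h2 := congrArg (fun x : FN (N * p) => (x : LaurentSeries Kb)) hg
      rw [← (modularFunctionFieldBar (N * p)).coe_val, map_sum] at h2
      rw [← h2.trans (map_zero _)]
      refine Finset.sum_congr rfl fun i _ => ?_
      rw [hc i]
      rfl
    have h3 := eq_zero_of_sum_qExpand_mul_pow p _ (descent_order_JJ (N * p)) c h1
    intro i
    apply Subtype.ext
    apply Subtype.ext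
    rw [← hc i, h3]
    simp
  have hbot : E = ⊥ := descent_eq_bot E p hp.two_le hdeg _ hli
  have hyE : (⟨qExpand Kb p y, hy⟩ : FN (N * p)) ∈ E := ⟨y, rfl⟩
  rw [hbot, IntermediateField.mem_bot] at hyE
  obtain ⟨z, hz⟩ := hyE
  have h5 := congrArg (fun x : FN (N * p) => (x : LaurentSeries Kb)) hz
  simp only at h5
  rw [halg z] at h5
  have h6 := qExpand_injective p h5
  rw [← h6]
  exact z.2

end Fermat.Agent.S18
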