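import Fermat.Agent.GR.FormalHecke

/-!
# S18 / Level / Root : an `n`-th root of a series in `q^p` is a series in `q^p`
-/

set_option autoImplicit false

open ModularCurve

namespace Fermat.Agent.S18

/-- `qExpand` multiplies orders by `N`. -/
theorem Root_order_qExpand {R : Type*} [CommRing R] (N : ℕ) [NeZero N] (f : LaurentSeries R) :
    (qExpand R N f).order = (N : ℤ) * f.order := by
  by_cases hf : f = 0
  · simp [hf]
  have hf' : qExpand R N f ≠ 0 := fun h => hf (qExpand_injective N (by simpa using h))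
  apply le_antisymm
  · apply HahnSeries.order_le_of_coeff_ne_zero
    rw [qExpand_coeff_mul]
    exact HahnSeries.coeff_order_eq_zero.not.mpr hf
  · have h1 : (qExpand R N f).coeff (qExpand R N f).order ≠ 0 :=
      HahnSeries.coeff_order_eq_zero.not.mpr hf'
    by_cases hd : (N : ℤ) ∣ (qExpand R N f).order
    · obtain ⟨m, hm⟩ := hd
      rw [hm] at h1 ⊢
      rw [qExpand_coeff_mul] at h1
      have := HahnSeries.order_le_of_coeff_ne_zero h1
      exact mul_le_mul_of_nonneg_left this (by positivity)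
    · exact absurd (qExpand_coeff_of_not_dvd N f hd) h1

/-- **Package S18-G.** -/
theorem exists_qExpand_eq_of_pow_eq {K : Type*} [Field K] [CharZero K] (p n : ℕ) [NeZero p]
    (hn : n ≠ 0) (W y' : LaurentSeries K) (hW : (n : ℤ) ∣ W.order)
    (h : y' ^ n = qExpand K p W) : ∃ y : LaurentSeries K, y' = qExpand K p y := by
  classical
  by_cases hy : y' = 0
  · exact ⟨0, by rw [hy, map_zero]⟩
  haveI : NeZero n := ⟨hn⟩
  -- the order of `y'` is divisible by `p`
  have hord : (p : ℤ) ∣ y'.order := by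
    obtain ⟨w, hw⟩ := hW
    have h1 : (y' ^ n).order = n • y'.order := HahnSeries.order_pow y' n
    rw [h, Root_order_qExpand, hw, nsmul_eq_mul] at h1
    have hn' : (n : ℤ) ≠ 0 := by exact_mod_cast hn
    refine ⟨w, ?_⟩
    have : (n : ℤ) * y'.order = (n : ℤ) * ((p : ℤ) * w) := by rw [← h1]; ring
    exact mul_left_cancel₀ hn' this
  -- pass to the algebraic closure
  let L := AlgebraicClosure K
  let φ : K →+* L := algebraMap K L
  have hφ : Function.Injective φ := φ.injective
  obtain ⟨ζ₀, hζ₀⟩ : ∃ ζ : L, IsPrimitiveRoot ζ p :=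
    HasEnoughRootsOfUnity.exists_primitiveRoot L p
  obtain ⟨μ₀, hμ₀⟩ : ∃ μ : L, IsPrimitiveRoot μ n :=
    HasEnoughRootsOfUnity.exists_primitiveRoot L n
  have hζ₀u : IsUnit ζ₀ := hζ₀.isUnit (NeZero.ne p)
  obtain ⟨ζ, rfl⟩ := hζ₀u
  have hζ : IsPrimitiveRoot ζ p := IsPrimitiveRoot.coe_units_iff.mp hζ₀
  set Y : LaurentSeries L := coeffMap φ y' with hY
  have hY0 : Y ≠ 0 := by
    intro h0
    apply hy
    ext m
    have := congrArg (fun z => HahnSeries.coeff z m) h0
    simp only [hY, coeffMap_coeff, HahnSeries.coeff_zero] at this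
    simpa using hφ (by simpa using this)
  have hYn : Y ^ n = qExpand L p (coeffMap φ W) := by
    rw [hY, ← map_pow, h, GR.coeffMap_qExpand]
  have hsc : (GR.qScale ζ Y) ^ n = Y ^ n := by
    rw [← map_pow, hYn, GR.qScale_qExpand, hζ.pow_eq_one, GR.qScale_one]
  -- the quotient is an `n`-th root of unity, hence a constant
  have hξ : (GR.qScale ζ Y / Y) ^ n = 1 := by
    rw [div_pow, hsc, div_self (pow_ne_zero n hY0)]
  have hC : IsPrimitiveRoot (HahnSeries.C μ₀ : LaurentSeries L) n :=
    hμ₀.map_of_injective (f := (HahnSeries.C : L →+* LaurentSeries L)) HahnSeries.C_injective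
  obtain ⟨i, -, hi⟩ := hC.eq_pow_of_pow_eq_one hξ
  have hmul : GR.qScale ζ Y = HahnSeries.C (μ₀ ^ i) * Y := by
    rw [map_pow, hi, div_mul_cancel₀ _ hY0]
  have hcoef : ∀ m : ℤ, ((ζ ^ m : Lˣ) : L) * Y.coeff m = μ₀ ^ i * Y.coeff m := by
    intro m
    have := congrArg (fun z => HahnSeries.coeff z m) hmul
    simpa [GR.qScale_coeff, HahnSeries.C_mul_eq_smul] using this
  have hlead : Y.coeff y'.order ≠ 0 := by
    rw [hY, coeffMap_coeff]
    intro h0
    exact HahnSeries.coeff_order_eq_zero.not.mpr hy (hφ (by simpa using h0))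
  have hμ1 : μ₀ ^ i = 1 := by
    have h1 := hcoef y'.order
    obtain ⟨w, hw⟩ := hord
    have h2 : (ζ ^ y'.order : Lˣ) = 1 := by
      rw [hw, zpow_mul, zpow_natCast, hζ.pow_eq_one, one_zpow]
    rw [h2, Units.val_one] at h1
    exact (mul_right_cancel₀ hlead h1).symm
  refine ⟨GR.qContract p y', (GR.qExpand_qContract p ?_).symm⟩
  intro m hm
  have h1 := hcoef m
  rw [hμ1, one_mul] at h1
  have h2 : ((ζ ^ m : Lˣ) : L) ≠ 1 := by
    intro h3
    apply hm
    have : (ζ ^ m : Lˣ) = 1 := Units.ext (by simpa using h3)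
    exact (hζ.zpow_eq_one_iff_dvd m).mp this
  have h3 : Y.coeff m = 0 := by
    have : (((ζ ^ m : Lˣ) : L) - 1) * Y.coeff m = 0 := by rw [sub_mul, h1, one_mul, sub_self]
    rcases mul_eq_zero.mp this with h4 | h4
    · exact absurd (sub_eq_zero.mp h4) h2
    · exact h4
  rw [hY, coeffMap_coeff] at h3
  exact hφ (by simpa using h3)

end Fermat.Agent.S18
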